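import Fermat.Agent.S22.Forms

set_option autoImplicit false

open UpperHalfPlane hiding I
open Complex Filter Function Matrix.SpecialLinearGroup
open scoped Manifold Topology Real MatrixGroups ModularForm Pointwise

namespace Fermat.Agent.S22

variable (N : ℕ) [NeZero N] (m : ℕ)

/-- generators of the period lattice. -/
def latGen : Set (CuspForm (CongruenceSubgroup.Gamma0 N) ((m : ℤ) + 2) →ₗ[ℂ] ℂ) :=
  {l | ∃ γ ∈ CongruenceSubgroup.Gamma0 N, ∃ x y : ℤ, ∀ f, l f = Coc m f (mapGL ℝ γ) x y}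

/-- the period lattice. -/
def Lat : Submodule ℤ (CuspForm (CongruenceSubgroup.Gamma0 N) ((m : ℤ) + 2) →ₗ[ℂ] ℂ) :=
  Submodule.span ℤ (latGen N m)

variable {N m}

theorem comp_mem_of_decomp {ι : Type*} [Fintype ι] (δ : ι → GL (Fin 2) ℝ)
    (t : Module.End ℂ (CuspForm (CongruenceSubgroup.Gamma0 N) ((m : ℤ) + 2)))
    (ht : ∀ f, ((t f : CuspForm (CongruenceSubgroup.Gamma0 N) ((m : ℤ) + 2)) : ℍ → ℂ)
      = ∑ u, (f : ℍ → ℂ) ∣[(m : ℤ) + 2] δ u)
    (hpos : ∀ u, 0 < (δ u).det.val)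
    (h0 : ∀ (f : ℍ → ℂ), Tower (m + 1) f → ∀ u X Y, Coc m f (δ u) X Y = 0)
    (hT : ∀ (f : ℍ → ℂ), Tower (m + 1) f → ∀ u, Tower (m + 1) (f ∣[(m : ℤ) + 2] δ u))
    (hI : ∀ u, IntMat (δ u))
    (hcomm : ∀ γ ∈ CongruenceSubgroup.Gamma0 N, ∀ u, ∃ γ' ∈ CongruenceSubgroup.Gamma0 N, ∃ u',
      δ u * mapGL ℝ γ = mapGL ℝ γ' * δ u')
    {l : CuspForm (CongruenceSubgroup.Gamma0 N) ((m : ℤ) + 2) →ₗ[ℂ] ℂ} (hl : l ∈ latGen N m) :
    l ∘ₗ t ∈ Lat N m := by
  obtain ⟨γ, hγ, x, y, hl⟩ := hl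
  choose γ' hγ' u' hmul using hcomm γ hγ
  choose x' y' hx' hy' using fun u => (hI (u' u)).exists_act x y
  choose l' hl' using fun u => exists_functional (m := m) (hγ' u) (x' u) (y' u)
  have hsum : l ∘ₗ t = ∑ u, l' u := by
    ext f
    rw [LinearMap.comp_apply, hl, ht, LinearMap.sum_apply]
    rw [Coc_sum]
    · refine Finset.sum_congr rfl fun u _ => ?_
      rw [Coc_slash_of_comm f (hγ' u) (hpos u) (h0 f (tower_cuspForm f _) u)
        (h0 f (tower_cuspForm f _) (u' u)) (hT f (tower_cuspForm f _) u) (hmul u), hl', hx', hy']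
    · exact fun u _ => hT f (tower_cuspForm f _) u
    · intro u _
      rw [← SlashAction.slash_mul, hmul u, SlashAction.slash_mul, slash_eq_self f (hγ' u)]
      exact hT f (tower_cuspForm f _) (u' u)
  rw [hsum]
  refine Submodule.sum_mem _ fun u _ => Submodule.subset_span ?_
  exact ⟨γ' u, hγ' u, x' u, y' u, hl' u⟩


open P2MW.S_ModularForm_heckeT_slash_eq_self_of_mem_Gamma0.ModularForm.HeckeSlashInvariance in
open ModularForm in
theorem comp_heckeTLin_mem {p : ℕ} (hp : p.Prime) (hpN : ¬ p ∣ N)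
    {l : CuspForm (CongruenceSubgroup.Gamma0 N) ((m : ℤ) + 2) →ₗ[ℂ] ℂ} (hl : l ∈ latGen N m) :
    l ∘ₗ (CuspForm.heckeTLin ((m : ℤ) + 2) hp hpN) ∈ Lat N m := by
  have : Fact p.Prime := ⟨hp⟩
  have : NeZero p := ⟨hp.ne_zero⟩
  have hp0 : p ≠ 0 := hp.ne_zero
  refine comp_mem_of_decomp (heckeRep p) _ ?_ ?_ ?_ ?_ ?_ ?_ hl
  · intro f
    rw [CuspForm.coe_heckeTLin_apply, heckeT_eq_sum_onePoint]
  · intro u
    induction u using OnePoint.rec with
    | infty => exact det_heckeDiagMatrix_pos p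
    | coe j => exact det_heckeMatrix_pos p _
  · intro f hf u X Y
    induction u using OnePoint.rec with
    | infty => exact Coc_heckeDiagMatrix hf hp0 X Y
    | coe j => exact Coc_heckeMatrix hf hp0 _ X Y
  · intro f hf u
    induction u using OnePoint.rec with
    | infty => exact hf.slash_heckeDiagMatrix _ hp0
    | coe j => exact hf.slash_heckeMatrix _ hp0 _
  · intro u
    induction u using OnePoint.rec with
    | infty => exact intMat_heckeDiagMatrix hp0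
    | coe j => exact intMat_heckeMatrix hp0 _
  · intro γ hγ u
    have hcN : (N : ℤ) ∣ γ 1 0 :=
      (ZMod.intCast_zmod_eq_zero_iff_dvd _ _).mp (CongruenceSubgroup.Gamma0_mem.mp hγ)
    obtain ⟨g', hg', hmul⟩ := heckeRep_mul hpN γ hcN u
    exact ⟨g', CongruenceSubgroup.Gamma0_mem.mpr ((ZMod.intCast_zmod_eq_zero_iff_dvd _ _).mpr hg'),
      _, hmul⟩

open P2MW.S_ModularForm_heckeT_slash_eq_self_of_mem_Gamma0.ModularForm.HeckeSlashInvariance in
open ModularForm in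
theorem comp_heckeULin_mem {p : ℕ} (hp : p.Prime) (hpN : p ∣ N)
    {l : CuspForm (CongruenceSubgroup.Gamma0 N) ((m : ℤ) + 2) →ₗ[ℂ] ℂ} (hl : l ∈ latGen N m) :
    l ∘ₗ (CuspForm.heckeULin ((m : ℤ) + 2) hpN) ∈ Lat N m := by
  have : NeZero p := ⟨hp.ne_zero⟩
  have hp0 : p ≠ 0 := hp.ne_zero
  refine comp_mem_of_decomp (fun x : ZMod p => heckeMatrix p x.val) _ ?_ ?_ ?_ ?_ ?_ ?_ hl
  · intro f
    rw [CuspForm.coe_heckeULin_apply, heckeU_eq_sum_zmod]
  · intro u
    exact det_heckeMatrix_pos p _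
  · intro f hf u X Y
    exact Coc_heckeMatrix hf hp0 _ X Y
  · intro f hf u
    exact hf.slash_heckeMatrix _ hp0 _
  · intro u
    exact intMat_heckeMatrix hp0 _
  · intro γ hγ u
    have hcN : (N : ℤ) ∣ γ 1 0 :=
      (ZMod.intCast_zmod_eq_zero_iff_dvd _ _).mp (CongruenceSubgroup.Gamma0_mem.mp hγ)
    have hc : (p : ℤ) ∣ γ 1 0 := (Int.natCast_dvd_natCast.mpr hpN).trans hcN
    obtain ⟨g', hg', hmul⟩ := heckeMatrix_mul_of_dvd γ hc u
    refine ⟨g', ?_, _, hmul⟩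
    rw [CongruenceSubgroup.Gamma0_mem, hg']
    push_cast
    rw [CongruenceSubgroup.Gamma0_mem.mp hγ, mul_zero]

/-- every element of the Hecke algebra preserves the period lattice. -/
theorem comp_mem_Lat_of_mem_heckeAlgebra {S : Set ℕ}
    {t : Module.End ℂ (CuspForm (CongruenceSubgroup.Gamma0 N) ((m : ℤ) + 2))}
    (ht : t ∈ CuspForm.heckeAlgebra N ((m : ℤ) + 2) S)
    {l : CuspForm (CongruenceSubgroup.Gamma0 N) ((m : ℤ) + 2) →ₗ[ℂ] ℂ} (hl : l ∈ Lat N m) :
    l ∘ₗ t ∈ Lat N m := by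
  unfold CuspForm.heckeAlgebra at ht
  induction ht using Algebra.adjoin_induction generalizing l with
  | mem t ht =>
    have key : ∀ l ∈ latGen N m, l ∘ₗ t ∈ Lat N m := by
      intro l hl
      rcases ht with ⟨ℓ, hℓ, hℓN, -, rfl⟩ | ⟨q, hqN, hq, -, rfl⟩
      · exact comp_heckeTLin_mem hℓ hℓN hl
      · exact comp_heckeULin_mem hq hqN hl
    unfold Lat at hl
    induction hl using Submodule.span_induction with
    | mem l hl => exact key l hl
    | zero => simp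
    | add a b _ _ ha hb => rw [LinearMap.add_comp]; exact Submodule.add_mem _ ha hb
    | smul n a _ ha => rw [LinearMap.smul_comp]; exact Submodule.smul_mem _ _ ha
  | algebraMap n =>
    have : l ∘ₗ (algebraMap ℤ (Module.End ℂ
        (CuspForm (CongruenceSubgroup.Gamma0 N) ((m : ℤ) + 2))) n) = n • l := by
      ext f
      simp [Algebra.algebraMap_eq_smul_one]
    rw [this]
    exact Submodule.smul_mem _ _ hl
  | add a b _ _ ha hb =>
    rw [LinearMap.comp_add]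
    exact Submodule.add_mem _ (ha hl) (hb hl)
  | mul a b _ _ ha hb =>
    have : l ∘ₗ (a * b) = (l ∘ₗ a) ∘ₗ b := rfl
    rw [this]
    exact hb (ha hl)

end Fermat.Agent.S22
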