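import Fermat.Agent.S22.FG
import Fermat.Prelude.Thm_ModularForm_sturm_bound_Gamma0

set_option autoImplicit false

open UpperHalfPlane hiding I
open Complex Filter Function Matrix.SpecialLinearGroup
open scoped Manifold Topology Real MatrixGroups ModularForm Pointwise

namespace Fermat.Agent.S22

theorem Good.prim {h : ℝ} {f : ℍ → ℂ} (hf : Good h f) : Good h (prim f) := by
  obtain ⟨F, hF, hp⟩ := hf.exists_prim
  rw [prim_eq hp hF.zero]; exact hF

theorem Good.iterate_prim {h : ℝ} {f : ℍ → ℂ} (hf : Good h f) (n : ℕ) :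
    Good h ((Fermat.Agent.S22.prim)^[n] f) := by
  induction n generalizing f with
  | zero => exact hf
  | succ n ih => rw [Function.iterate_succ_apply]; exact ih hf.prim

theorem PhiC_polynomial (n : ℕ) (f : ℍ → ℂ) (z₀ a b c d Y : ℂ) :
    ∃ p : Polynomial ℂ, ∀ X, PhiC n f z₀ (a * X + b * Y) (c * X + d * Y) = p.eval X := by
  induction n generalizing f with
  | zero => exact ⟨Polynomial.C ((prim f ∘ ofComplex) z₀), fun X => by simp [PhiC_zero]⟩
  | succ n ih =>
    obtain ⟨p, hp⟩ := ih (prim f)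
    refine ⟨Polynomial.C ((prim f ∘ ofComplex) z₀) *
      (Polynomial.C a * Polynomial.X + Polynomial.C (b * Y)
        - Polynomial.C z₀ * (Polynomial.C c * Polynomial.X + Polynomial.C (d * Y))) ^ (n + 1)
      + Polynomial.C ((n : ℂ) + 1) * (Polynomial.C c * Polynomial.X + Polynomial.C (d * Y)) * p,
      fun X => ?_⟩
    rw [PhiC_succ, hp]
    simp

theorem Coc_polynomial (m : ℕ) (f : ℍ → ℂ) (g : GL (Fin 2) ℝ) (Y : ℂ) :
    ∃ p : Polynomial ℂ, ∀ X, Coc m f g X Y = p.eval X := by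
  obtain ⟨p, hp⟩ := PhiC_polynomial m f ((g • UpperHalfPlane.I : ℍ) : ℂ)
    ((g 0 0 : ℝ) : ℂ) ((g 0 1 : ℝ) : ℂ) ((g 1 0 : ℝ) : ℂ) ((g 1 1 : ℝ) : ℂ) Y
  obtain ⟨q, hq⟩ := PhiC_polynomial m (f ∣[(m : ℤ) + 2] g) ((UpperHalfPlane.I : ℍ) : ℂ) 1 0 0 1 Y
  refine ⟨p - q, fun X => ?_⟩
  have h1 := hp X
  have h2 := hq X
  simp only [one_mul, zero_mul, add_zero, zero_add] at h2
  unfold Coc actX actY
  rw [h1, h2, Polynomial.eval_sub]

/-- the Eichler integral (up to the factor `m!`). -/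
noncomputable def Eich (m : ℕ) (f : ℍ → ℂ) : ℍ → ℂ := fun z => PhiC m f z z 1

theorem Eich_eq (m : ℕ) (f : ℍ → ℂ) : Eich m f = (m.factorial : ℂ) • (prim^[m + 1] f) := by
  funext z
  simp [Eich, PhiC_diag]

theorem Eich_slash {m : ℕ} {f : ℍ → ℂ} {g : GL (Fin 2) ℝ} (hg : g.det.val = 1)
    (hf : Tower (m + 1) f) (hf' : Tower (m + 1) (f ∣[(m : ℤ) + 2] g)) (z : ℍ) :
    ((Eich m f) ∣[-(m : ℤ)] g) z = Eich m (f ∣[(m : ℤ) + 2] g) z + Coc m f g z 1 := by
  have hpos : 0 < g.det.val := by rw [hg]; exact one_pos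
  rw [← Coc_eq hpos hf hf' z 1 z]
  rw [ModularForm.slash_apply, UpperHalfPlane.σ, if_pos hpos, hg]
  have hden : denom g z ≠ 0 := denom_ne_zero g z
  have hX : actX g z 1 = denom g z * ((g • z : ℍ) : ℂ) := by
    rw [coe_smul_of_det_pos hpos]
    field_simp
    simp [actX, num]
  have hY : actY g z 1 = denom g z * 1 := by
    simp [actY, denom]
  rw [hX, hY, PhiC_homog]
  simp [Eich]
  ring


theorem polynomial_eq_zero_of_int {p : Polynomial ℂ} (h : ∀ x : ℤ, p.eval (x : ℂ) = 0) : p = 0 := by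
  apply Polynomial.eq_zero_of_infinite_isRoot
  refine Set.Infinite.mono ?_ (Set.infinite_range_of_injective (Int.cast_injective (α := ℂ)))
  rintro _ ⟨x, rfl⟩
  exact h x

theorem polynomial_const_of_periodic {p : Polynomial ℂ} {M : ℕ} (hM : 0 < M) (z₀ : ℂ)
    (h : ∀ n : ℕ, p.eval (z₀ + n * M) = p.eval z₀) : p = Polynomial.C (p.eval z₀) := by
  rw [← sub_eq_zero]
  apply Polynomial.eq_zero_of_infinite_isRoot
  have hinj : Function.Injective (fun n : ℕ => z₀ + (n : ℂ) * M) := by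
    intro a b hab
    have hM' : (M : ℂ) ≠ 0 := by exact_mod_cast hM.ne'
    have : (a : ℂ) * M = b * M := add_left_cancel hab
    exact_mod_cast mul_right_cancel₀ hM' this
  refine Set.Infinite.mono ?_ (Set.infinite_range_of_injective hinj)
  rintro _ ⟨n, rfl⟩
  simp [Polynomial.IsRoot, h n]

variable {N : ℕ} [NeZero N] {m : ℕ}

/-- the Eichler integral as a slash invariant form, when all periods vanish. -/
noncomputable def EichSIF (f : CuspForm (CongruenceSubgroup.Gamma0 N) ((m : ℤ) + 2))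
    (h0 : ∀ γ ∈ CongruenceSubgroup.Gamma0 N, ∀ X, Coc m f (mapGL ℝ γ) X 1 = 0) :
    SlashInvariantForm (CongruenceSubgroup.Gamma0 N) (-(m : ℤ)) where
  toFun := Eich m f
  slash_action_eq' := by
    rintro _ ⟨γ, hγ, rfl⟩
    funext z
    rw [Eich_slash (by simp) (tower_cuspForm f _) (tower_slash f γ _), slash_eq_self f hγ,
      h0 γ hγ, add_zero]

theorem isBoundedAtImInfty_Eich_slash (f : CuspForm (CongruenceSubgroup.Gamma0 N) ((m : ℤ) + 2))
    (h0 : ∀ γ ∈ CongruenceSubgroup.Gamma0 N, ∀ X, Coc m f (mapGL ℝ γ) X 1 = 0) (γ : SL(2, ℤ)) :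
    IsBoundedAtImInfty ((Eich m f) ∣[-(m : ℤ)] (mapGL ℝ γ)) := by
  obtain ⟨M, hM, hper⟩ := Subgroup.IsArithmetic.exists_nat_mem_strictPeriods_conj
    ((CongruenceSubgroup.Gamma0 N : Subgroup SL(2, ℤ)) : Subgroup (GL (Fin 2) ℝ))
  have hMR : (0 : ℝ) < M := by exact_mod_cast hM
  have h1 := hper γ⁻¹
  rw [map_inv] at h1
  -- periodicity of the translated Eichler integral
  have hperE : Periodic (((Eich m f) ∣[-(m : ℤ)] (mapGL ℝ γ)) ∘ ofComplex) ((M : ℝ) : ℂ) :=
    SlashInvariantFormClass.periodic_comp_ofComplex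
      (SlashInvariantForm.translate (EichSIF f h0) (mapGL ℝ γ)) h1
  -- the decaying part
  have hgood : Good M ((f : ℍ → ℂ) ∣[(m : ℤ) + 2] (mapGL ℝ γ)) :=
    ⟨hMR, SlashInvariantFormClass.periodic_comp_ofComplex (CuspForm.translate f (mapGL ℝ γ)) h1,
      (CuspFormClass.holo f).slash _ _, CuspFormClass.zero_at_infty_slash f γ⟩
  have hG := hgood.iterate_prim (m + 1)
  set G : ℍ → ℂ := Eich m ((f : ℍ → ℂ) ∣[(m : ℤ) + 2] (mapGL ℝ γ)) with hGdef
  have hGeq : G = (m.factorial : ℂ) • (prim^[m + 1] ((f : ℍ → ℂ) ∣[(m : ℤ) + 2] (mapGL ℝ γ))) :=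
    Eich_eq _ _
  have hGper : Periodic (G ∘ ofComplex) ((M : ℝ) : ℂ) := by
    intro w
    have := hG.per w
    simp only [Function.comp_apply] at this
    simp only [hGeq, Function.comp_apply, Pi.smul_apply, this]
  have hGzero : IsZeroAtImInfty G := by
    rw [hGeq]; exact isZeroAtImInfty_smul _ hG.zero
  obtain ⟨p, hp⟩ := Coc_polynomial m (f : ℍ → ℂ) (mapGL ℝ γ) 1
  have hdecomp : ∀ z : ℍ, ((Eich m f) ∣[-(m : ℤ)] (mapGL ℝ γ)) z = G z + p.eval (z : ℂ) := by
    intro z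
    rw [Eich_slash (by simp) (tower_cuspForm f _) (tower_slash f γ _), hp]
  have hpper : ∀ z : ℍ, p.eval ((z : ℂ) + M) = p.eval (z : ℂ) := by
    intro z
    have hz' : 0 < ((z : ℂ) + (M : ℝ)).im := by simpa using z.2
    have e1 := hperE (z : ℂ)
    have e2 := hGper (z : ℂ)
    simp only [Function.comp_apply, ofComplex_apply] at e1 e2
    rw [hdecomp, hdecomp, e2, ofComplex_apply_of_im_pos hz'] at e1
    have e3 := add_left_cancel e1
    simpa using e3
  have hpn : ∀ n : ℕ, p.eval (((UpperHalfPlane.I : ℍ) : ℂ) + n * M)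
      = p.eval ((UpperHalfPlane.I : ℍ) : ℂ) := by
    intro n
    induction n with
    | zero => simp
    | succ n ih =>
      have hz' : 0 < (((UpperHalfPlane.I : ℍ) : ℂ) + n * M).im := by
        simp
      have := hpper ⟨_, hz'⟩
      rw [← ih, ← this]
      congr 1
      push_cast
      ring
  have hconst := polynomial_const_of_periodic hM _ hpn
  have hfinal : ((Eich m f) ∣[-(m : ℤ)] (mapGL ℝ γ))
      = G + fun _ => p.eval ((UpperHalfPlane.I : ℍ) : ℂ) := by
    funext z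
    rw [hdecomp, hconst]
    simp
  rw [hfinal]
  exact hGzero.isBoundedAtImInfty.add (Filter.const_boundedAtFilter _ _)


theorem Good.smul {h : ℝ} {f : ℍ → ℂ} (c : ℂ) (hf : Good h f) : Good h (c • f) where
  pos := hf.pos
  per := by
    intro w
    have := hf.per w
    simp only [Function.comp_apply] at this
    simp only [Function.comp_apply, Pi.smul_apply, this]
  hol := hf.hol.const_smul c
  zero := isZeroAtImInfty_smul c hf.zero

theorem Good.Eich {h : ℝ} {f : ℍ → ℂ} (hf : Good h f) (m : ℕ) : Good h (Eich m f) := by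
  rw [Eich_eq]; exact (hf.iterate_prim (m + 1)).smul _

/-- the Eichler integral as a modular form of weight `-m`, when all periods vanish. -/
noncomputable def EichMF (f : CuspForm (CongruenceSubgroup.Gamma0 N) ((m : ℤ) + 2))
    (h0 : ∀ γ ∈ CongruenceSubgroup.Gamma0 N, ∀ X, Coc m f (mapGL ℝ γ) X 1 = 0) :
    ModularForm (CongruenceSubgroup.Gamma0 N) (-(m : ℤ)) where
  toSlashInvariantForm := EichSIF f h0
  holo' := ((good_cuspForm f).Eich m).hol
  bdd_at_cusps' := by
    intro c hc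
    rw [Subgroup.IsArithmetic.isCusp_iff_isCusp_SL2Z] at hc
    rw [OnePoint.isBoundedAt_iff_forall_SL2Z hc]
    intro γ _
    exact isBoundedAtImInfty_Eich_slash f h0 γ

theorem EichMF_eq_zero (f : CuspForm (CongruenceSubgroup.Gamma0 N) ((m : ℤ) + 2))
    (h0 : ∀ γ ∈ CongruenceSubgroup.Gamma0 N, ∀ X, Coc m f (mapGL ℝ γ) X 1 = 0) :
    EichMF f h0 = 0 := by
  apply ModularForm.sturm_bound_Gamma0 N
  intro n hn
  have h1 : (-(m : ℤ) * ((CongruenceSubgroup.Gamma0 N).index : ℤ)).toNat = 0 := by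
    apply Int.toNat_of_nonpos
    have : (0 : ℤ) ≤ (m : ℤ) * ((CongruenceSubgroup.Gamma0 N).index : ℤ) := by positivity
    linarith
  rw [h1] at hn
  have hn0 : n = 0 := by omega
  subst hn0
  have hg := (good_cuspForm f).Eich m
  have h2 : (qExpansion 1 (Eich m f)).coeff 0 = valueAtInfty (Eich m f) :=
    qExpansion_coeff_zero one_pos
      (analyticAt_cuspFunction_zero one_pos hg.per hg.hol hg.zero.isBoundedAtImInfty) hg.per
  rw [hg.zero.valueAtInfty_eq_zero] at h2
  exact h2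

theorem eq_zero_of_prim_eq_zero {n : ℕ} {f : ℍ → ℂ} (hf : Tower (n + 1) f) (h : prim f = 0) :
    f = 0 := by
  funext z
  have h1 := hf.isPrim z
  rw [h] at h1
  have h2 : HasDerivAt ((0 : ℍ → ℂ) ∘ ofComplex) 0 (z : ℂ) := isPrim_zero z
  exact h1.unique h2

theorem eq_zero_of_iterate_prim_eq_zero {n : ℕ} {f : ℍ → ℂ} (hf : Tower n f)
    (h : prim^[n] f = 0) : f = 0 := by
  induction n generalizing f with
  | zero => exact h
  | succ n ih =>
    rw [Function.iterate_succ_apply] at h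
    exact eq_zero_of_prim_eq_zero hf (ih hf.prim h)

/-- the period lattice separates cusp forms. -/
theorem eq_zero_of_forall_Lat (f : CuspForm (CongruenceSubgroup.Gamma0 N) ((m : ℤ) + 2))
    (h : ∀ l ∈ Lat N m, l f = 0) : f = 0 := by
  have h0 : ∀ γ ∈ CongruenceSubgroup.Gamma0 N, ∀ X, Coc m f (mapGL ℝ γ) X 1 = 0 := by
    intro γ hγ X
    obtain ⟨p, hp⟩ := Coc_polynomial m (f : ℍ → ℂ) (mapGL ℝ γ) 1
    have hp0 : p = 0 := by
      apply polynomial_eq_zero_of_int
      intro x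
      rw [← hp]
      obtain ⟨l, hl⟩ := exists_functional (m := m) hγ x 1
      have h1 := h l (Submodule.subset_span ⟨γ, hγ, x, 1, hl⟩)
      rw [hl] at h1
      simpa using h1
    rw [hp, hp0, Polynomial.eval_zero]
  have h1 := EichMF_eq_zero f h0
  have h2 : Eich m f = 0 := by
    have := congrArg (fun F : ModularForm (CongruenceSubgroup.Gamma0 N) (-(m : ℤ)) => (F : ℍ → ℂ)) h1
    exact this
  rw [Eich_eq] at h2
  have h3 : prim^[m + 1] (f : ℍ → ℂ) = 0 := by
    have hm : (m.factorial : ℂ) ≠ 0 := by exact_mod_cast m.factorial_ne_zero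
    exact (smul_eq_zero.mp h2).resolve_left hm
  have h4 := eq_zero_of_iterate_prim_eq_zero (tower_cuspForm f _) h3
  exact DFunLike.coe_injective h4

end Fermat.Agent.S22
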