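import Fermat.Agent.S22.Lattice

set_option autoImplicit false

open UpperHalfPlane hiding I
open Complex Filter Function Matrix.SpecialLinearGroup
open scoped Manifold Topology Real MatrixGroups ModularForm Pointwise

namespace Fermat.Agent.S22

theorem fg_SL2Z : Group.FG SL(2, ℤ) := by
  rw [Group.fg_iff]
  exact ⟨{ModularGroup.S, ModularGroup.T}, _root_.SpecialLinearGroup.SL2Z_generators, by simp⟩

theorem fg_Gamma0 (N : ℕ) [NeZero N] : (CongruenceSubgroup.Gamma0 N).FG := by
  have := fg_SL2Z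
  rw [← Group.fg_iff_subgroup_fg]
  exact Subgroup.fg_of_index_ne_zero _

variable {N : ℕ} [NeZero N] {m : ℕ}

theorem Lat_fg : (Lat N m).FG := by
  classical
  obtain ⟨S, hS⟩ := fg_Gamma0 N
  let Sfun : SL(2, ℤ) → Finset (CuspForm (CongruenceSubgroup.Gamma0 N) ((m : ℤ) + 2) →ₗ[ℂ] ℂ) :=
    fun γ => if h : γ ∈ CongruenceSubgroup.Gamma0 N then (HP_Coc (m := m) h).exists_finset.choose
      else ∅
  let L0 : Submodule ℤ (CuspForm (CongruenceSubgroup.Gamma0 N) ((m : ℤ) + 2) →ₗ[ℂ] ℂ) :=
    Submodule.span ℤ ((S.biUnion Sfun : Finset _) : Set _)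
  have key : ∀ γ (_ : γ ∈ Subgroup.closure (S : Set SL(2, ℤ))), ∀ (x y : ℤ)
      (l : CuspForm (CongruenceSubgroup.Gamma0 N) ((m : ℤ) + 2) →ₗ[ℂ] ℂ),
      (∀ f, l f = Coc m f (mapGL ℝ γ) x y) → l ∈ L0 := by
    intro γ hγ
    induction hγ using Subgroup.closure_induction with
    | mem γ hγS =>
      intro x y l hl
      have hγ : γ ∈ CongruenceSubgroup.Gamma0 N := hS ▸ Subgroup.subset_closure hγS
      obtain ⟨l', hl', hl'f⟩ := (HP_Coc (m := m) hγ).exists_finset.choose_spec x y
      have : l = l' := by ext f; rw [hl, hl'f]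
      rw [this]
      refine Submodule.span_mono ?_ hl'
      intro a ha
      simp only [Finset.coe_biUnion, Set.mem_iUnion]
      refine ⟨γ, hγS, ?_⟩
      simp only [Sfun, dif_pos hγ]
      exact ha
    | one =>
      intro x y l hl
      have : l = 0 := by
        ext f
        rw [hl, map_one, Coc_one]; rfl
      rw [this]; exact Submodule.zero_mem _
    | mul γ₁ γ₂ h₁ h₂ ih₁ ih₂ =>
      intro x y l hl
      rw [hS] at h₁ h₂
      obtain ⟨x', y', hx', hy'⟩ := (intMat_mapGL γ₂).exists_act x y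
      obtain ⟨l₁, hl₁⟩ := exists_functional (m := m) h₁ x' y'
      obtain ⟨l₂, hl₂⟩ := exists_functional (m := m) h₂ x y
      have : l = l₁ + l₂ := by
        ext f
        rw [hl, map_mul, Coc_mul_Gamma0 f h₁, LinearMap.add_apply, hl₁, hl₂, hx', hy']
      rw [this]
      exact Submodule.add_mem _ (ih₁ x' y' l₁ hl₁) (ih₂ x y l₂ hl₂)
    | inv γ h ih =>
      intro x y l hl
      rw [hS] at h
      obtain ⟨x', y', hx', hy'⟩ := (intMat_mapGL γ⁻¹).exists_act x y
      obtain ⟨l₁, hl₁⟩ := exists_functional (m := m) h x' y'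
      have : l = -l₁ := by
        ext f
        have h1 := Coc_mul_Gamma0 f h (mapGL ℝ γ⁻¹) x y
        rw [← map_mul, mul_inv_cancel, map_one, Coc_one, hx', hy'] at h1
        rw [hl, LinearMap.neg_apply, hl₁]
        linear_combination -h1
      rw [this]
      exact Submodule.neg_mem _ (ih x' y' l₁ hl₁)
  have hle : Lat N m ≤ L0 := by
    unfold Lat
    rw [Submodule.span_le]
    rintro l ⟨γ, hγ, x, y, hl⟩
    exact key γ (hS ▸ hγ) x y l hl
  have : IsNoetherian ℤ L0 := isNoetherian_span_of_finite ℤ (Finset.finite_toSet _)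
  exact Submodule.FG.of_le_of_isNoetherian hle

end Fermat.Agent.S22
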