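import Fermat.Agent.S22.HP

set_option autoImplicit false

open UpperHalfPlane hiding I
open Complex Filter Function
open scoped Manifold Topology Real MatrixGroups ModularForm

namespace Fermat.Agent.S22

noncomputable def actX (g : GL (Fin 2) ℝ) (X Y : ℂ) : ℂ := ((g 0 0 : ℝ) : ℂ) * X + ((g 0 1 : ℝ) : ℂ) * Y

noncomputable def actY (g : GL (Fin 2) ℝ) (X Y : ℂ) : ℂ := ((g 1 0 : ℝ) : ℂ) * X + ((g 1 1 : ℝ) : ℂ) * Y

theorem actX_mul (g h : GL (Fin 2) ℝ) (X Y : ℂ) :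
    actX (g * h) X Y = actX g (actX h X Y) (actY h X Y) := by
  simp only [actX, actY, Matrix.GeneralLinearGroup.coe_mul, Matrix.mul_apply, Fin.sum_univ_two]
  push_cast
  ring

theorem actY_mul (g h : GL (Fin 2) ℝ) (X Y : ℂ) :
    actY (g * h) X Y = actY g (actX h X Y) (actY h X Y) := by
  simp only [actX, actY, Matrix.GeneralLinearGroup.coe_mul, Matrix.mul_apply, Fin.sum_univ_two]
  push_cast
  ring

theorem actX_one (X Y : ℂ) : actX 1 X Y = X := by simp [actX]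

theorem actY_one (X Y : ℂ) : actY 1 X Y = Y := by simp [actY]

/-- the "period polynomial" attached to `f` and `g`. -/
noncomputable def Coc (m : ℕ) (f : ℍ → ℂ) (g : GL (Fin 2) ℝ) (X Y : ℂ) : ℂ :=
  PhiC m f ((g • UpperHalfPlane.I : ℍ) : ℂ) (actX g X Y) (actY g X Y)
    - PhiC m (f ∣[(m : ℤ) + 2] g) (UpperHalfPlane.I : ℍ) X Y

theorem hasDerivAt_mobius (g : GL (Fin 2) ℝ) (z : ℍ) :
    HasDerivAt (fun w : ℂ => num g w / denom g w)
      (((g.det.val : ℝ) : ℂ) / (denom g z) ^ 2) (z : ℂ) := by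
  have h1 : HasDerivAt (fun w : ℂ => num g w) ((g 0 0 : ℝ) : ℂ) (z : ℂ) := by
    unfold num
    simpa using ((hasDerivAt_id (z : ℂ)).const_mul ((g 0 0 : ℝ) : ℂ)).add_const ((g 0 1 : ℝ) : ℂ)
  have h2 : HasDerivAt (fun w : ℂ => denom g w) ((g 1 0 : ℝ) : ℂ) (z : ℂ) := by
    unfold denom
    simpa using ((hasDerivAt_id (z : ℂ)).const_mul ((g 1 0 : ℝ) : ℂ)).add_const ((g 1 1 : ℝ) : ℂ)
  have h3 := h1.fun_div h2 (denom_ne_zero g z)
  refine h3.congr_deriv ?_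
  congr 1
  rw [Matrix.GeneralLinearGroup.val_det_apply, Matrix.det_fin_two]
  simp only [num, denom]
  push_cast
  ring

theorem Coc_eq {m : ℕ} {f : ℍ → ℂ} {g : GL (Fin 2) ℝ} (hg : 0 < g.det.val)
    (hf : Tower (m + 1) f) (hf' : Tower (m + 1) (f ∣[(m : ℤ) + 2] g)) (X Y : ℂ) (z : ℍ) :
    PhiC m f ((g • z : ℍ) : ℂ) (actX g X Y) (actY g X Y)
      - PhiC m (f ∣[(m : ℤ) + 2] g) z X Y = Coc m f g X Y := by
  set X' := actX g X Y with hX'
  set Y' := actY g X Y with hY'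
  let G : ℂ → ℂ := fun w => PhiC m f (num g w / denom g w) X' Y'
      - PhiC m (f ∣[(m : ℤ) + 2] g) w X Y
  have hD : ∀ u : ℍ, HasDerivAt ((fun u : ℍ => G (u : ℂ)) ∘ ofComplex) 0 (u : ℂ) := by
    intro u
    apply hasDerivAt_comp_ofComplex
    have hcoe : ((g • u : ℍ) : ℂ) = num g u / denom g u := coe_smul_of_det_pos hg u
    have h1 : HasDerivAt (fun w => PhiC m f w X' Y')
        (f (g • u) * (X' - ((g • u : ℍ) : ℂ) * Y') ^ m) (num g u / denom g u) := by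
      rw [← hcoe]; exact hasDerivAt_PhiC hf X' Y' (g • u)
    have h2 := h1.comp (u : ℂ) (hasDerivAt_mobius g u)
    have h3 := hasDerivAt_PhiC hf' X Y u
    have h4 := h2.fun_sub h3
    refine h4.congr_deriv ?_
    have hden : denom g u ≠ 0 := denom_ne_zero g u
    have hlin : X' - ((g • u : ℍ) : ℂ) * Y' = ((g.det.val : ℝ) : ℂ) * (X - u * Y) / denom g u := by
      rw [hcoe, hX', hY', Matrix.GeneralLinearGroup.val_det_apply, Matrix.det_fin_two]
      field_simp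
      simp only [actX, actY, num, denom]
      push_cast
      ring
    have hslash : (f ∣[(m : ℤ) + 2] g) u
        = f (g • u) * ((g.det.val : ℝ) : ℂ) ^ (m + 1) / (denom g u) ^ (m + 2) := by
      rw [ModularForm.slash_apply, UpperHalfPlane.σ, if_pos hg, abs_of_pos hg]
      have e1 : ((m : ℤ) + 2 - 1) = ((m + 1 : ℕ) : ℤ) := by push_cast; ring
      have e2 : (-((m : ℤ) + 2)) = -((m + 2 : ℕ) : ℤ) := by push_cast; ring
      rw [e1, e2, zpow_natCast, zpow_neg, zpow_natCast]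
      simp [div_eq_mul_inv]
    rw [hlin, hslash, div_pow, mul_pow]
    field_simp
    ring
  have hc := const_of_hasDerivAt_zero hD z UpperHalfPlane.I
  simp only [G] at hc
  rw [← coe_smul_of_det_pos hg z, ← coe_smul_of_det_pos hg UpperHalfPlane.I] at hc
  exact hc


theorem Coc_mul {m : ℕ} {f : ℍ → ℂ} {g₁ g₂ : GL (Fin 2) ℝ} (h₁ : 0 < g₁.det.val)
    (hf : Tower (m + 1) f) (hf₁ : Tower (m + 1) (f ∣[(m : ℤ) + 2] g₁)) (X Y : ℂ) :
    Coc m f (g₁ * g₂) X Y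
      = Coc m f g₁ (actX g₂ X Y) (actY g₂ X Y) + Coc m (f ∣[(m : ℤ) + 2] g₁) g₂ X Y := by
  rw [← Coc_eq h₁ hf hf₁ (actX g₂ X Y) (actY g₂ X Y) (g₂ • UpperHalfPlane.I)]
  unfold Coc
  rw [mul_smul, actX_mul, actY_mul, SlashAction.slash_mul]
  ring

open ModularForm in
theorem slash_heckeMatrix_eq (k : ℤ) {p : ℕ} (hp : p ≠ 0) (j : ℕ) (f : ℍ → ℂ) :
    f ∣[k] heckeMatrix p j = (p : ℂ)⁻¹ • (f ∘ fun z => heckeMatrix p j • z) := by
  funext z
  rw [slash_heckeMatrix_apply k hp]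
  rfl

open ModularForm in
theorem slash_heckeDiagMatrix_eq (k : ℤ) {p : ℕ} (hp : p ≠ 0) (f : ℍ → ℂ) :
    f ∣[k] heckeDiagMatrix p = ((p : ℂ) ^ (k - 1)) • (f ∘ fun z => heckeDiagMatrix p • z) := by
  funext z
  rw [slash_heckeDiagMatrix_apply k hp]
  rfl

open ModularForm in
theorem affine_heckeMatrix {p : ℕ} (hp : p ≠ 0) (j : ℕ) (z : ℍ) :
    ((heckeMatrix p j • z : ℍ) : ℂ) = (((p : ℝ)⁻¹ : ℝ) : ℂ) * z + (((j : ℝ) / p : ℝ) : ℂ) := by
  rw [coe_heckeMatrix_smul hp]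
  have : (p : ℂ) ≠ 0 := by exact_mod_cast hp
  push_cast
  field_simp

open ModularForm in
theorem affine_heckeDiagMatrix {p : ℕ} (hp : p ≠ 0) (z : ℍ) :
    ((heckeDiagMatrix p • z : ℍ) : ℂ) = (((p : ℝ) : ℝ) : ℂ) * z + ((0 : ℝ) : ℂ) := by
  rw [coe_heckeDiagMatrix_smul hp]
  push_cast
  ring

open ModularForm in
theorem Tower.slash_heckeMatrix {n : ℕ} {f : ℍ → ℂ} (hf : Tower n f) (k : ℤ) {p : ℕ} (hp : p ≠ 0)
    (j : ℕ) : Tower n (f ∣[k] heckeMatrix p j) := by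
  rw [slash_heckeMatrix_eq k hp]
  have hp' : (0 : ℝ) < (p : ℝ)⁻¹ := by positivity
  exact (hf.comp_affine hp' (affine_heckeMatrix hp j)).smul _

open ModularForm in
theorem Tower.slash_heckeDiagMatrix {n : ℕ} {f : ℍ → ℂ} (hf : Tower n f) (k : ℤ) {p : ℕ}
    (hp : p ≠ 0) : Tower n (f ∣[k] heckeDiagMatrix p) := by
  rw [slash_heckeDiagMatrix_eq k hp]
  have hp' : (0 : ℝ) < (p : ℝ) := by positivity
  exact (hf.comp_affine hp' (affine_heckeDiagMatrix hp)).smul _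

open ModularForm in
theorem Coc_heckeMatrix {m : ℕ} {f : ℍ → ℂ} (hf : Tower (m + 1) f) {p : ℕ} (hp : p ≠ 0) (j : ℕ)
    (X Y : ℂ) : Coc m f (heckeMatrix p j) X Y = 0 := by
  have hp' : (0 : ℝ) < (p : ℝ)⁻¹ := by positivity
  have hpC : (p : ℂ) ≠ 0 := by exact_mod_cast hp
  unfold Coc
  rw [slash_heckeMatrix_eq _ hp, PhiC_smul _ (hf.comp_affine hp' (affine_heckeMatrix hp j)),
    PhiC_comp_affine hp' (affine_heckeMatrix hp j) hf]
  have h1 : actX (heckeMatrix p j) X Y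
      = (p : ℂ) * ((((p : ℝ)⁻¹ : ℝ) : ℂ) * X + (((j : ℝ) / p : ℝ) : ℂ) * Y) := by
    simp only [actX, val_heckeMatrix hp]
    push_cast
    simp
    field_simp
  have h2 : actY (heckeMatrix p j) X Y = (p : ℂ) * Y := by
    simp only [actY, val_heckeMatrix hp]
    simp
  rw [h1, h2, PhiC_homog]
  push_cast
  rw [inv_inv]
  field_simp
  ring

open ModularForm in
theorem Coc_heckeDiagMatrix {m : ℕ} {f : ℍ → ℂ} (hf : Tower (m + 1) f) {p : ℕ} (hp : p ≠ 0)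
    (X Y : ℂ) : Coc m f (heckeDiagMatrix p) X Y = 0 := by
  have hp' : (0 : ℝ) < (p : ℝ) := by positivity
  have hpC : (p : ℂ) ≠ 0 := by exact_mod_cast hp
  unfold Coc
  rw [slash_heckeDiagMatrix_eq _ hp, PhiC_smul _ (hf.comp_affine hp' (affine_heckeDiagMatrix hp)),
    PhiC_comp_affine hp' (affine_heckeDiagMatrix hp) hf]
  have h1 : actX (heckeDiagMatrix p) X Y
      = ((((p : ℝ) : ℝ) : ℂ) * X + ((0 : ℝ) : ℂ) * Y) := by
    simp only [actX, val_heckeDiagMatrix hp]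
    simp
  have h2 : actY (heckeDiagMatrix p) X Y = Y := by
    simp only [actY, val_heckeDiagMatrix hp]
    simp
  rw [h1, h2]
  have e1 : ((m : ℤ) + 2 - 1) = ((m + 1 : ℕ) : ℤ) := by push_cast; ring
  rw [e1, zpow_natCast, inv_pow]
  push_cast
  have h3 : (p : ℂ) ^ (m + 1) ≠ 0 := pow_ne_zero _ hpC
  field_simp
  simp

end Fermat.Agent.S22
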