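import Fermat.Agent.S22.Cocycle
import Fermat.Prelude.Thm_CongruenceSubgroup_one_mem_strictPeriods_Gamma0
import Fermat.Prelude.Thm_Subgroup_IsArithmetic_exists_nat_mem_strictPeriods_conj

set_option autoImplicit false

open UpperHalfPlane hiding I
open Complex Filter Function Matrix.SpecialLinearGroup
open scoped Manifold Topology Real MatrixGroups ModularForm Pointwise

namespace Fermat.Agent.S22

variable {N : ℕ} [NeZero N] {k : ℤ}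

theorem good_cuspForm (f : CuspForm (CongruenceSubgroup.Gamma0 N) k) : Good 1 (f : ℍ → ℂ) where
  pos := one_pos
  per := SlashInvariantFormClass.periodic_comp_ofComplex f
    (CongruenceSubgroup.one_mem_strictPeriods_Gamma0 N)
  hol := CuspFormClass.holo f
  zero := CuspFormClass.zero_at_infty f

theorem exists_good_slash (f : CuspForm (CongruenceSubgroup.Gamma0 N) k) (γ : SL(2, ℤ)) :
    ∃ M : ℕ, 0 < M ∧ Good M ((f : ℍ → ℂ) ∣[k] (mapGL ℝ γ)) := by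
  obtain ⟨M, hM, hper⟩ := Subgroup.IsArithmetic.exists_nat_mem_strictPeriods_conj
    ((CongruenceSubgroup.Gamma0 N : Subgroup SL(2, ℤ)) : Subgroup (GL (Fin 2) ℝ))
  refine ⟨M, hM, ⟨by exact_mod_cast hM, ?_, ?_, ?_⟩⟩
  · have h1 := hper γ⁻¹
    rw [map_inv] at h1
    exact SlashInvariantFormClass.periodic_comp_ofComplex (CuspForm.translate f (mapGL ℝ γ)) h1
  · exact (CuspFormClass.holo f).slash k _
  · exact CuspFormClass.zero_at_infty_slash f γ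

theorem tower_cuspForm (f : CuspForm (CongruenceSubgroup.Gamma0 N) k) (n : ℕ) :
    Tower n (f : ℍ → ℂ) := (good_cuspForm f).tower n

theorem tower_slash (f : CuspForm (CongruenceSubgroup.Gamma0 N) k) (γ : SL(2, ℤ)) (n : ℕ) :
    Tower n ((f : ℍ → ℂ) ∣[k] (mapGL ℝ γ)) := by
  obtain ⟨M, -, hM⟩ := exists_good_slash f γ
  exact hM.tower n

omit [NeZero N] in
theorem slash_eq_self (f : CuspForm (CongruenceSubgroup.Gamma0 N) k) {γ : SL(2, ℤ)}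
    (hγ : γ ∈ CongruenceSubgroup.Gamma0 N) : (f : ℍ → ℂ) ∣[k] (mapGL ℝ γ) = f :=
  SlashInvariantFormClass.slash_action_eq f _ (Subgroup.mem_map_of_mem (mapGL ℝ) hγ)

theorem det_mapGL_pos (γ : SL(2, ℤ)) : 0 < (mapGL ℝ γ).det.val := by
  simp

/-- coercion to functions as a linear map. -/
noncomputable def coeLin (N : ℕ) (k : ℤ) :
    CuspForm (CongruenceSubgroup.Gamma0 N) k →ₗ[ℂ] (ℍ → ℂ) where
  toFun f := f
  map_add' f g := rfl
  map_smul' c f := by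
    funext z
    simp


omit [NeZero N] in
theorem coeLin_apply (f : CuspForm (CongruenceSubgroup.Gamma0 N) k) : coeLin N k f = (f : ℍ → ℂ) := rfl

section cocycle

variable {m : ℕ}

theorem HP_Coc {γ : SL(2, ℤ)} (hγ : γ ∈ CongruenceSubgroup.Gamma0 N) :
    HP (fun (f : CuspForm (CongruenceSubgroup.Gamma0 N) ((m : ℤ) + 2)) X Y =>
      Coc m f (mapGL ℝ γ) X Y) := by
  have h1 := HP_PhiC m (coeLin N ((m : ℤ) + 2)) (fun f n => tower_cuspForm f n)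
    (((mapGL ℝ γ) • UpperHalfPlane.I : ℍ) : ℂ)
    (((mapGL ℝ γ) 0 0 : ℝ) : ℂ) (((mapGL ℝ γ) 0 1 : ℝ) : ℂ)
    (((mapGL ℝ γ) 1 0 : ℝ) : ℂ) (((mapGL ℝ γ) 1 1 : ℝ) : ℂ)
  have h2 := HP_PhiC m (coeLin N ((m : ℤ) + 2)) (fun f n => tower_cuspForm f n)
    ((UpperHalfPlane.I : ℍ) : ℂ) 1 0 0 1
  refine (h1.sub h2).of_eq (fun f X Y => ?_)
  unfold Coc
  rw [slash_eq_self f hγ]
  simp only [coeLin_apply, actX, actY, one_mul, zero_mul, add_zero, zero_add]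

theorem exists_functional {γ : SL(2, ℤ)} (hγ : γ ∈ CongruenceSubgroup.Gamma0 N) (x y : ℤ) :
    ∃ l : CuspForm (CongruenceSubgroup.Gamma0 N) ((m : ℤ) + 2) →ₗ[ℂ] ℂ,
      ∀ f, l f = Coc m f (mapGL ℝ γ) x y := by
  obtain ⟨S, hS⟩ := (HP_Coc (m := m) hγ).exists_finset
  obtain ⟨l, -, hl⟩ := hS x y
  exact ⟨l, hl⟩

theorem Coc_one (f : ℍ → ℂ) (X Y : ℂ) : Coc m f 1 X Y = 0 := by
  unfold Coc
  rw [SlashAction.slash_one, one_smul, actX_one, actY_one, sub_self]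

theorem Coc_mul_Gamma0 (f : CuspForm (CongruenceSubgroup.Gamma0 N) ((m : ℤ) + 2)) {γ₁ : SL(2, ℤ)}
    (h₁ : γ₁ ∈ CongruenceSubgroup.Gamma0 N) (g : GL (Fin 2) ℝ) (X Y : ℂ) :
    Coc m f (mapGL ℝ γ₁ * g) X Y =
      Coc m f (mapGL ℝ γ₁) (actX g X Y) (actY g X Y) + Coc m f g X Y := by
  have := Coc_mul (m := m) (f := (f : ℍ → ℂ)) (g₁ := mapGL ℝ γ₁) (g₂ := g) (det_mapGL_pos γ₁)
    (tower_cuspForm f _) (tower_slash f γ₁ _) X Y
  rwa [slash_eq_self f h₁] at this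

/-- matrices with integer entries -/
def IntMat (g : GL (Fin 2) ℝ) : Prop := ∀ i j, ∃ n : ℤ, g i j = (n : ℝ)

theorem IntMat.exists_act {g : GL (Fin 2) ℝ} (hg : IntMat g) (x y : ℤ) :
    ∃ x' y' : ℤ, actX g x y = x' ∧ actY g x y = y' := by
  obtain ⟨a, ha⟩ := hg 0 0
  obtain ⟨b, hb⟩ := hg 0 1
  obtain ⟨c, hc⟩ := hg 1 0
  obtain ⟨d, hd⟩ := hg 1 1
  refine ⟨a * x + b * y, c * x + d * y, ?_, ?_⟩
  · simp only [actX, ha, hb]; push_cast; ring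
  · simp only [actY, hc, hd]; push_cast; ring

theorem intMat_mapGL (γ : SL(2, ℤ)) : IntMat (mapGL ℝ γ) := fun i j => ⟨γ i j, by simp⟩

open ModularForm in
theorem intMat_heckeMatrix {p : ℕ} (hp : p ≠ 0) (j : ℕ) : IntMat (heckeMatrix p j) := by
  intro a b
  rw [val_heckeMatrix hp]
  fin_cases a <;> fin_cases b
  · exact ⟨1, by simp⟩
  · exact ⟨j, by simp⟩
  · exact ⟨0, by simp⟩
  · exact ⟨p, by simp⟩

open ModularForm in
theorem intMat_heckeDiagMatrix {p : ℕ} (hp : p ≠ 0) : IntMat (heckeDiagMatrix p) := by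
  intro a b
  rw [val_heckeDiagMatrix hp]
  fin_cases a <;> fin_cases b
  · exact ⟨p, by simp⟩
  · exact ⟨0, by simp⟩
  · exact ⟨0, by simp⟩
  · exact ⟨1, by simp⟩

theorem Coc_slash_of_comm (f : CuspForm (CongruenceSubgroup.Gamma0 N) ((m : ℤ) + 2))
    {δ δ' : GL (Fin 2) ℝ} {γ γ' : SL(2, ℤ)} (hγ' : γ' ∈ CongruenceSubgroup.Gamma0 N)
    (hδ : 0 < δ.det.val) (hδ0 : ∀ X Y, Coc m f δ X Y = 0) (hδ'0 : ∀ X Y, Coc m f δ' X Y = 0)
    (hT : Tower (m + 1) ((f : ℍ → ℂ) ∣[(m : ℤ) + 2] δ))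
    (hcomm : δ * mapGL ℝ γ = mapGL ℝ γ' * δ') (X Y : ℂ) :
    Coc m ((f : ℍ → ℂ) ∣[(m : ℤ) + 2] δ) (mapGL ℝ γ) X Y
      = Coc m f (mapGL ℝ γ') (actX δ' X Y) (actY δ' X Y) := by
  have h1 := Coc_mul (m := m) (f := (f : ℍ → ℂ)) (g₁ := δ) (g₂ := mapGL ℝ γ) hδ
    (tower_cuspForm f _) hT X Y
  have h2 := Coc_mul_Gamma0 f hγ' δ' X Y
  rw [hδ0, zero_add, hcomm] at h1
  rw [hδ'0, add_zero] at h2
  rw [← h1, h2]

theorem Coc_sum {ι : Type*} (s : Finset ι) {f : ι → ℍ → ℂ} (g : GL (Fin 2) ℝ)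
    (hf : ∀ i ∈ s, Tower (m + 1) (f i)) (hf' : ∀ i ∈ s, Tower (m + 1) (f i ∣[(m : ℤ) + 2] g))
    (X Y : ℂ) : Coc m (∑ i ∈ s, f i) g X Y = ∑ i ∈ s, Coc m (f i) g X Y := by
  unfold Coc
  rw [SlashAction.sum_slash, PhiC_sum s hf, PhiC_sum s hf', Finset.sum_sub_distrib]

end cocycle

end Fermat.Agent.S22
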