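import Fermat.Agent.S22.Phi

set_option autoImplicit false

open UpperHalfPlane hiding I
open Complex Filter Function
open scoped Manifold Topology Real

namespace Fermat.Agent.S22

section HP

variable {W : Type*} [AddCommGroup W] [Module ℂ W]

/-- functions `W → ℂ → ℂ → ℂ` that are linear in the first and polynomial in the other variables. -/
inductive HP : (W → ℂ → ℂ → ℂ) → Prop
  | const (ρ : W →ₗ[ℂ] ℂ) : HP (fun w _ _ => ρ w)
  | mulX {Q : W → ℂ → ℂ → ℂ} : HP Q → HP (fun w X Y => X * Q w X Y)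
  | mulY {Q : W → ℂ → ℂ → ℂ} : HP Q → HP (fun w X Y => Y * Q w X Y)
  | smul (c : ℂ) {Q : W → ℂ → ℂ → ℂ} : HP Q → HP (fun w X Y => c * Q w X Y)
  | add {Q Q' : W → ℂ → ℂ → ℂ} : HP Q → HP Q' → HP (fun w X Y => Q w X Y + Q' w X Y)

theorem HP.of_eq {Q Q' : W → ℂ → ℂ → ℂ} (h : HP Q) (e : ∀ w X Y, Q' w X Y = Q w X Y) : HP Q' := by
  have : Q' = Q := by funext w X Y; exact e w X Y
  rw [this]; exact h

theorem HP.mulLin (a b : ℂ) {Q : W → ℂ → ℂ → ℂ} (h : HP Q) :
    HP (fun w X Y => (a * X + b * Y) * Q w X Y) :=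
  ((h.mulX.smul a).add (h.mulY.smul b)).of_eq (fun w X Y => by ring)

theorem HP.mulLinPow (a b : ℂ) (n : ℕ) {Q : W → ℂ → ℂ → ℂ} (h : HP Q) :
    HP (fun w X Y => (a * X + b * Y) ^ n * Q w X Y) := by
  induction n with
  | zero => exact h.of_eq (fun w X Y => by simp)
  | succ n ih => exact (ih.mulLin a b).of_eq (fun w X Y => by ring)

theorem HP.sub {Q Q' : W → ℂ → ℂ → ℂ} (h : HP Q) (h' : HP Q') :
    HP (fun w X Y => Q w X Y - Q' w X Y) :=
  (h.add (h'.smul (-1))).of_eq (fun w X Y => by ring)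

/-- values at integer points lie in a finitely generated group of functionals. -/
theorem HP.exists_finset {Q : W → ℂ → ℂ → ℂ} (h : HP Q) :
    ∃ S : Finset (W →ₗ[ℂ] ℂ), ∀ x y : ℤ,
      ∃ l ∈ Submodule.span ℤ (S : Set (W →ₗ[ℂ] ℂ)), ∀ w, l w = Q w x y := by
  classical
  induction h with
  | const ρ =>
    exact ⟨{ρ}, fun x y => ⟨ρ, Submodule.subset_span (by simp), fun w => rfl⟩⟩
  | mulX _ ih =>
    obtain ⟨S, hS⟩ := ih
    refine ⟨S, fun x y => ?_⟩
    obtain ⟨l, hl, hlw⟩ := hS x y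
    exact ⟨x • l, Submodule.smul_mem _ _ hl, fun w => by
      rw [LinearMap.smul_apply, hlw, zsmul_eq_mul]⟩
  | mulY _ ih =>
    obtain ⟨S, hS⟩ := ih
    refine ⟨S, fun x y => ?_⟩
    obtain ⟨l, hl, hlw⟩ := hS x y
    exact ⟨y • l, Submodule.smul_mem _ _ hl, fun w => by
      rw [LinearMap.smul_apply, hlw, zsmul_eq_mul]⟩
  | smul c _ ih =>
    obtain ⟨S, hS⟩ := ih
    refine ⟨S.image (fun l => c • l), fun x y => ?_⟩
    obtain ⟨l, hl, hlw⟩ := hS x y
    refine ⟨c • l, ?_, fun w => by rw [LinearMap.smul_apply, hlw, smul_eq_mul]⟩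
    let T : (W →ₗ[ℂ] ℂ) →ₗ[ℤ] (W →ₗ[ℂ] ℂ) :=
      { toFun := fun l => c • l
        map_add' := fun a b => smul_add c a b
        map_smul' := fun n a => by
          simp only [eq_intCast, Int.cast_id]
          exact smul_comm c n a }
    have h1 : T l ∈ Submodule.map T (Submodule.span ℤ (S : Set (W →ₗ[ℂ] ℂ))) :=
      Submodule.mem_map_of_mem hl
    rw [Submodule.map_span] at h1
    simpa [T] using h1
  | add _ _ ih ih' =>
    obtain ⟨S, hS⟩ := ih
    obtain ⟨S', hS'⟩ := ih'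
    refine ⟨S ∪ S', fun x y => ?_⟩
    obtain ⟨l, hl, hlw⟩ := hS x y
    obtain ⟨l', hl', hlw'⟩ := hS' x y
    refine ⟨l + l', Submodule.add_mem _ ?_ ?_, fun w => by
      rw [LinearMap.add_apply, hlw, hlw']⟩
    · exact Submodule.span_mono (by simp) hl
    · exact Submodule.span_mono (by simp) hl'

theorem HP.exists_polynomial {Q : W → ℂ → ℂ → ℂ} (h : HP Q) (w : W) (Y : ℂ) :
    ∃ p : Polynomial ℂ, ∀ X, Q w X Y = p.eval X := by
  induction h with
  | const ρ => exact ⟨Polynomial.C (ρ w), fun X => by simp⟩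
  | mulX _ ih =>
    obtain ⟨p, hp⟩ := ih
    exact ⟨Polynomial.X * p, fun X => by simp [hp]⟩
  | mulY _ ih =>
    obtain ⟨p, hp⟩ := ih
    exact ⟨Polynomial.C Y * p, fun X => by simp [hp]⟩
  | smul c _ ih =>
    obtain ⟨p, hp⟩ := ih
    exact ⟨Polynomial.C c * p, fun X => by simp [hp]⟩
  | add _ _ ih ih' =>
    obtain ⟨p, hp⟩ := ih
    obtain ⟨p', hp'⟩ := ih'
    exact ⟨p + p', fun X => by simp [hp, hp']⟩

/-- the family of primitives of a linear family of functions. -/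
noncomputable def primFam (ι : W →ₗ[ℂ] (ℍ → ℂ)) (hι : ∀ w n, Tower n (ι w)) :
    W →ₗ[ℂ] (ℍ → ℂ) where
  toFun w := prim (ι w)
  map_add' a b := by rw [map_add, prim_add (hι _ 1) (hι _ 1)]
  map_smul' c a := by rw [map_smul, prim_smul c (hι _ 1)]; rfl

theorem primFam_apply (ι : W →ₗ[ℂ] (ℍ → ℂ)) (hι : ∀ w n, Tower n (ι w)) (w : W) :
    primFam ι hι w = prim (ι w) := rfl

theorem tower_primFam (ι : W →ₗ[ℂ] (ℍ → ℂ)) (hι : ∀ w n, Tower n (ι w)) (w : W) (n : ℕ) :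
    Tower n (primFam ι hι w) := (hι w (n + 1)).prim

theorem HP_PhiC (n : ℕ) (ι : W →ₗ[ℂ] (ℍ → ℂ)) (hι : ∀ w n, Tower n (ι w)) (z₀ a b c d : ℂ) :
    HP (fun w X Y => PhiC n (ι w) z₀ (a * X + b * Y) (c * X + d * Y)) := by
  induction n generalizing ι with
  | zero =>
    exact (HP.const ((LinearMap.proj (ofComplex z₀)).comp (primFam ι hι))).of_eq
      (fun w X Y => rfl)
  | succ n ih =>
    have h1 := (HP.const ((LinearMap.proj (ofComplex z₀)).comp (primFam ι hι))).mulLinPow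
      (a - z₀ * c) (b - z₀ * d) (n + 1)
    have h2 := ((ih (primFam ι hι) (tower_primFam ι hι)).mulLin c d).smul ((n : ℂ) + 1)
    refine (h1.add h2).of_eq (fun w X Y => ?_)
    rw [PhiC_succ]
    simp only [LinearMap.comp_apply, LinearMap.proj_apply, primFam_apply, Function.comp_apply]
    ring

end HP

end Fermat.Agent.S22
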