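import Fermat.Agent.S22.Prim

set_option autoImplicit false

open UpperHalfPlane hiding I
open Complex Filter Function
open scoped Manifold Topology Real

namespace Fermat.Agent.S22

/-- polynomial valued primitive of `f(w) (X - w Y)^n`. -/
noncomputable def PhiC : ℕ → (ℍ → ℂ) → ℂ → ℂ → ℂ → ℂ
  | 0, f, w, _, _ => (prim f ∘ ofComplex) w
  | n + 1, f, w, X, Y =>
      (prim f ∘ ofComplex) w * (X - w * Y) ^ (n + 1) + ((n : ℂ) + 1) * Y * PhiC n (prim f) w X Y

theorem PhiC_zero (f : ℍ → ℂ) (w X Y : ℂ) : PhiC 0 f w X Y = (prim f ∘ ofComplex) w := rfl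

theorem PhiC_succ (n : ℕ) (f : ℍ → ℂ) (w X Y : ℂ) :
    PhiC (n + 1) f w X Y =
      (prim f ∘ ofComplex) w * (X - w * Y) ^ (n + 1) + ((n : ℂ) + 1) * Y * PhiC n (prim f) w X Y :=
  rfl

theorem hasDerivAt_PhiC {n : ℕ} {f : ℍ → ℂ} (hf : Tower (n + 1) f) (X Y : ℂ) (z : ℍ) :
    HasDerivAt (fun w => PhiC n f w X Y) (f z * (X - z * Y) ^ n) (z : ℂ) := by
  induction n generalizing f with
  | zero =>
    simp only [PhiC_zero, pow_zero, mul_one]
    exact hf.isPrim z
  | succ n ih =>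
    simp only [PhiC_succ]
    have h1 : HasDerivAt (prim f ∘ ofComplex) (f z) (z : ℂ) := hf.isPrim z
    have h2 : HasDerivAt (fun w : ℂ => (X - w * Y) ^ (n + 1))
        (((n + 1 : ℕ) : ℂ) * (X - z * Y) ^ n * (-Y)) (z : ℂ) := by
      have h3 : HasDerivAt (fun w : ℂ => X - w * Y) (-Y) (z : ℂ) := by
        simpa using ((hasDerivAt_id (z : ℂ)).mul_const Y).const_sub X
      simpa using h3.fun_pow (n + 1)
    have h4 := (ih hf.prim).const_mul (((n : ℂ) + 1) * Y)
    have h5 := (h1.fun_mul h2).fun_add h4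
    have h6 : (prim f ∘ ofComplex) (z : ℂ) = prim f z := by simp
    rw [h6] at h5
    refine h5.congr_deriv ?_
    push_cast
    ring

theorem PhiC_homog (n : ℕ) (f : ℍ → ℂ) (w t X Y : ℂ) :
    PhiC n f w (t * X) (t * Y) = t ^ n * PhiC n f w X Y := by
  induction n generalizing f with
  | zero => simp [PhiC_zero]
  | succ n ih =>
    have h1 : t * X - w * (t * Y) = t * (X - w * Y) := by ring
    simp only [PhiC_succ, ih, h1, mul_pow]
    ring

theorem PhiC_diag (n : ℕ) (f : ℍ → ℂ) (w : ℂ) :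
    PhiC n f w w 1 = (n.factorial : ℂ) * ((prim^[n + 1] f) ∘ ofComplex) w := by
  induction n generalizing f with
  | zero => simp [PhiC_zero]
  | succ n ih =>
    rw [PhiC_succ, ih, Nat.factorial_succ, Function.iterate_succ_apply (f := prim) (n := n + 1)]
    push_cast
    ring

theorem PhiC_add {n : ℕ} {f g : ℍ → ℂ} (hf : Tower (n + 1) f) (hg : Tower (n + 1) g)
    (w X Y : ℂ) : PhiC n (f + g) w X Y = PhiC n f w X Y + PhiC n g w X Y := by
  induction n generalizing f g with
  | zero => simp [PhiC_zero, prim_add hf hg]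
  | succ n ih =>
    have hf1 : Tower 1 f := hf.of_le (by omega)
    have hg1 : Tower 1 g := hg.of_le (by omega)
    simp only [PhiC_succ, prim_add hf1 hg1, ih hf.prim hg.prim, Function.comp_apply,
      Pi.add_apply]
    ring

theorem PhiC_smul {n : ℕ} {f : ℍ → ℂ} (c : ℂ) (hf : Tower (n + 1) f)
    (w X Y : ℂ) : PhiC n (c • f) w X Y = c * PhiC n f w X Y := by
  induction n generalizing f with
  | zero => simp [PhiC_zero, prim_smul c hf]
  | succ n ih =>
    have hf1 : Tower 1 f := hf.of_le (by omega)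
    simp only [PhiC_succ, prim_smul c hf1, ih hf.prim, Function.comp_apply,
      Pi.smul_apply, smul_eq_mul]
    ring

theorem isPrim_zero : IsPrim 0 0 := by
  intro z
  have : ((0 : ℍ → ℂ) ∘ ofComplex) = fun _ => (0 : ℂ) := rfl
  rw [this]
  exact hasDerivAt_const _ _

theorem tower_zero (n : ℕ) : Tower n (0 : ℍ → ℂ) := by
  induction n with
  | zero => trivial
  | succ n ih => exact ⟨0, isPrim_zero, zero_zeroAtFilter _, ih⟩

theorem Tower.sum {ι : Type*} (s : Finset ι) {n : ℕ} {f : ι → ℍ → ℂ}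
    (hf : ∀ i ∈ s, Tower n (f i)) : Tower n (∑ i ∈ s, f i) := by
  classical
  induction s using Finset.induction_on with
  | empty => simpa using tower_zero n
  | insert a s ha ih =>
    rw [Finset.sum_insert ha]
    exact (hf a (Finset.mem_insert_self a s)).add
      (ih fun i hi => hf i (Finset.mem_insert_of_mem hi))

theorem PhiC_zero_fun (n : ℕ) (w X Y : ℂ) : PhiC n (0 : ℍ → ℂ) w X Y = 0 := by
  have := PhiC_smul (n := n) (f := (0 : ℍ → ℂ)) 0 (tower_zero _) w X Y
  simpa using this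

theorem PhiC_sum {ι : Type*} (s : Finset ι) {n : ℕ} {f : ι → ℍ → ℂ}
    (hf : ∀ i ∈ s, Tower (n + 1) (f i)) (w X Y : ℂ) :
    PhiC n (∑ i ∈ s, f i) w X Y = ∑ i ∈ s, PhiC n (f i) w X Y := by
  classical
  induction s using Finset.induction_on with
  | empty => simpa using PhiC_zero_fun n w X Y
  | insert a s ha ih =>
    rw [Finset.sum_insert ha, Finset.sum_insert ha,
      PhiC_add (hf a (Finset.mem_insert_self a s))
        (Tower.sum s fun i hi => hf i (Finset.mem_insert_of_mem hi)),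
      ih fun i hi => hf i (Finset.mem_insert_of_mem hi)]

theorem PhiC_comp_affine {A : ℍ → ℍ} {μ β : ℝ} (hμ : 0 < μ)
    (hA : ∀ z : ℍ, ((A z : ℍ) : ℂ) = μ * z + β) {n : ℕ} {f : ℍ → ℂ} (hf : Tower (n + 1) f)
    (z : ℍ) (X Y : ℂ) :
    PhiC n (f ∘ A) z X Y = ((μ : ℂ)⁻¹) ^ (n + 1) * PhiC n f (A z) (μ * X + β * Y) Y := by
  have hμC : (μ : ℂ) ≠ 0 := by exact_mod_cast hμ.ne'
  induction n generalizing f with
  | zero =>
    simp [PhiC_zero, prim_comp_affine hμ hA hf]
  | succ n ih =>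
    have hf1 : Tower 1 f := hf.of_le (by omega)
    have h1 : (μ : ℂ) * X + β * Y - (A z : ℂ) * Y = μ * (X - z * Y) := by
      rw [hA]; ring
    rw [PhiC_succ, PhiC_succ, prim_comp_affine hμ hA hf1,
      PhiC_smul _ (hf.prim.comp_affine hμ hA), ih hf.prim, h1, mul_pow]
    simp only [Function.comp_apply, Pi.smul_apply, smul_eq_mul, ofComplex_apply, inv_pow]
    field_simp
    ring

end Fermat.Agent.S22
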