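import Fermat.Statements.S22

set_option autoImplicit false

open UpperHalfPlane hiding I
open Complex Filter Function
open scoped Manifold Topology Real

namespace Fermat.Agent.S22

local notation "𝕢" => Periodic.qParam

/-- `F` is a holomorphic primitive of `f` on the upper half plane. -/
def IsPrim (F f : ℍ → ℂ) : Prop := ∀ z : ℍ, HasDerivAt (F ∘ ofComplex) (f z) (z : ℂ)

theorem IsPrim.mdiff {F f : ℍ → ℂ} (h : IsPrim F f) : MDiff F := by
  rw [UpperHalfPlane.mdifferentiable_iff]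
  intro w hw
  exact (h ⟨w, hw⟩).differentiableAt.differentiableWithinAt

theorem isOpen_upperHalfPlaneSet' : IsOpen {z : ℂ | 0 < z.im} :=
  isOpen_lt continuous_const Complex.continuous_im

theorem isPreconnected_upperHalfPlaneSet' : IsPreconnected {z : ℂ | 0 < z.im} :=
  (convex_halfSpace_im_gt 0).isPreconnected

theorem const_of_hasDerivAt_zero {D : ℍ → ℂ} (h : ∀ z : ℍ, HasDerivAt (D ∘ ofComplex) 0 (z : ℂ))
    (z w : ℍ) : D z = D w := by
  have h1 : DifferentiableOn ℂ (D ∘ ofComplex) {z : ℂ | 0 < z.im} := fun u hu =>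
    (h ⟨u, hu⟩).differentiableAt.differentiableWithinAt
  have h2 : Set.EqOn (deriv (D ∘ ofComplex)) 0 {z : ℂ | 0 < z.im} := fun u hu =>
    (h ⟨u, hu⟩).deriv
  have := IsOpen.is_const_of_deriv_eq_zero isOpen_upperHalfPlaneSet'
    isPreconnected_upperHalfPlaneSet' h1 h2 (x := (z : ℂ)) (y := (w : ℂ)) z.2 w.2
  simpa using this

theorem IsPrim.unique {F F' f : ℍ → ℂ} (h : IsPrim F f) (h' : IsPrim F' f)
    (h0 : IsZeroAtImInfty F) (h0' : IsZeroAtImInfty F') : F = F' := by
  have hD : ∀ z : ℍ, HasDerivAt ((F - F') ∘ ofComplex) 0 (z : ℂ) := by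
    intro z
    have := (h z).sub (h' z)
    rw [sub_self] at this
    exact this
  have hc := const_of_hasDerivAt_zero hD
  have hlim : Tendsto (F - F') atImInfty (𝓝 0) := by
    have := Tendsto.sub h0 h0'
    rw [sub_zero] at this
    exact this
  funext z
  have hconst : (F - F') = fun _ => (F - F') z := by
    funext w; exact hc w z
  rw [hconst] at hlim
  have := tendsto_nhds_unique hlim tendsto_const_nhds
  have h3 : F z - F' z = 0 := by simpa using this.symm
  exact sub_eq_zero.mp h3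

/-- periodic, holomorphic, vanishing at `i∞`. -/
structure Good (h : ℝ) (f : ℍ → ℂ) : Prop where
  pos : 0 < h
  per : Periodic (f ∘ ofComplex) h
  hol : MDiff f
  zero : IsZeroAtImInfty f

theorem hasDerivAt_qParam (h : ℝ) (z : ℂ) :
    HasDerivAt (𝕢 h) (2 * π * I / h * 𝕢 h z) z := by
  unfold Periodic.qParam
  have h1 : HasDerivAt (fun z : ℂ => 2 * π * I * z / h) (2 * π * I / h) z := by
    have := ((hasDerivAt_id z).const_mul (2 * π * I)).div_const (h : ℂ)
    simpa using this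
  have := h1.cexp
  rwa [mul_comm (cexp _)] at this

theorem Good.exists_prim {h : ℝ} {f : ℍ → ℂ} (hf : Good h f) :
    ∃ F, Good h F ∧ IsPrim F f := by
  have hh := hf.pos
  set φ := cuspFunction h f with hφdef
  have hφ : DifferentiableOn ℂ φ (Metric.ball 0 1) :=
    differentiableOn_cuspFunction_ball hh hf.per hf.hol hf.zero.isBoundedAtImInfty
  have hφ0 : φ 0 = 0 := hf.zero.cuspFunction_apply_zero hh
  have hχ : DifferentiableOn ℂ (dslope φ 0) (Metric.ball 0 1) :=
    (Complex.differentiableOn_dslope (Metric.ball_mem_nhds 0 one_pos)).mpr hφ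
  obtain ⟨ψ, hψ0, hψ⟩ := (hχ.isExactOn_ball).with_val_at 0 0
  have hhC : (h : ℂ) ≠ 0 := by exact_mod_cast hh.ne'
  have hpi : (2 * π * I : ℂ) ≠ 0 := by
    simp [Real.pi_ne_zero]
  set c : ℂ := h / (2 * π * I) with hc
  let F : ℍ → ℂ := fun z => c * ψ (𝕢 h z)
  have hprim : IsPrim F f := by
    intro z
    have hq : 𝕢 h z ∈ Metric.ball (0 : ℂ) 1 := by
      rw [mem_ball_zero_iff]
      exact Periodic.norm_qParam_lt_one hh z.2
    have h1 : HasDerivAt (fun w : ℂ => c * ψ (𝕢 h w))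
        (c * (dslope φ 0 (𝕢 h z) * (2 * π * I / h * 𝕢 h z))) z :=
      ((hψ _ hq).comp (z : ℂ) (hasDerivAt_qParam h z)).const_mul c
    have h2 : c * (dslope φ 0 (𝕢 h z) * (2 * π * I / h * 𝕢 h z)) = f z := by
      have h3 : (𝕢 h z - 0) • dslope φ 0 (𝕢 h z) = φ (𝕢 h z) - φ 0 := sub_smul_dslope φ 0 _
      rw [hφ0, sub_zero, sub_zero, smul_eq_mul] at h3
      have h4 : φ (𝕢 h z) = f z := eq_cuspFunction z hh.ne' hf.per
      rw [← h4, ← h3, hc]
      field_simp
    rw [h2] at h1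
    refine h1.congr_of_eventuallyEq ?_
    have hev := eventuallyEq_coe_comp_ofComplex z.2
    filter_upwards [hev] with w hw
    simp only [Function.comp_apply, id] at hw
    simp only [Function.comp_apply, F, hw]
  refine ⟨F, ⟨hh, ?_, hprim.mdiff, ?_⟩, hprim⟩
  · intro w
    by_cases hw : 0 < w.im
    · have hw' : 0 < (w + h).im := by simpa using hw
      simp only [Function.comp_apply, F, ofComplex_apply_of_im_pos hw,
        ofComplex_apply_of_im_pos hw']
      congr 2
      simp only [Periodic.qParam]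
      rw [mul_add, add_div, Complex.exp_add]
      have : (2 * π * I * (h : ℂ) / h) = 2 * π * I := by field_simp
      rw [this, Complex.exp_two_pi_mul_I, mul_one]
    · have hw1 : w.im ≤ 0 := not_lt.mp hw
      have hw' : (w + h).im ≤ 0 := by simpa using hw1
      simp only [Function.comp_apply]
      rw [ofComplex_apply_eq_of_im_nonpos hw' hw1]
  · have hcont : ContinuousAt ψ 0 :=
      (hψ 0 (Metric.mem_ball_self one_pos)).continuousAt
    have h1 : Tendsto (fun z : ℍ => ψ (𝕢 h z)) atImInfty (𝓝 (ψ 0)) :=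
      hcont.tendsto.comp (qParam_tendsto_atImInfty hh)
    rw [hψ0] at h1
    have := h1.const_mul c
    simpa [IsZeroAtImInfty, ZeroAtFilter, F] using this


/-- `Tower n f`: `f` admits `n` successive primitives vanishing at `i∞`. -/
def Tower : ℕ → (ℍ → ℂ) → Prop
  | 0, _ => True
  | n + 1, f => ∃ F, IsPrim F f ∧ IsZeroAtImInfty F ∧ Tower n F

open Classical in
/-- the primitive vanishing at `i∞` (junk value `0` if there is none). -/
noncomputable def prim (f : ℍ → ℂ) : ℍ → ℂ :=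
  if h : ∃ F, IsPrim F f ∧ IsZeroAtImInfty F then h.choose else 0

theorem prim_eq {F f : ℍ → ℂ} (h : IsPrim F f) (h0 : IsZeroAtImInfty F) : prim f = F := by
  have hex : ∃ F, IsPrim F f ∧ IsZeroAtImInfty F := ⟨F, h, h0⟩
  unfold prim
  rw [dif_pos hex]
  exact IsPrim.unique hex.choose_spec.1 h hex.choose_spec.2 h0

theorem Tower.isPrim {n : ℕ} {f : ℍ → ℂ} (h : Tower (n + 1) f) : IsPrim (prim f) f := by
  obtain ⟨F, h1, h2, -⟩ := h
  rw [prim_eq h1 h2]; exact h1

theorem Tower.zero_prim {n : ℕ} {f : ℍ → ℂ} (h : Tower (n + 1) f) :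
    IsZeroAtImInfty (prim f) := by
  obtain ⟨F, h1, h2, -⟩ := h
  rw [prim_eq h1 h2]; exact h2

theorem Tower.prim {n : ℕ} {f : ℍ → ℂ} (h : Tower (n + 1) f) : Tower n (prim f) := by
  obtain ⟨F, h1, h2, h3⟩ := h
  rw [prim_eq h1 h2]; exact h3

theorem Tower.of_succ {n : ℕ} {f : ℍ → ℂ} (h : Tower (n + 1) f) : Tower n f := by
  induction n generalizing f with
  | zero => trivial
  | succ n ih =>
    obtain ⟨F, h1, h2, h3⟩ := h
    exact ⟨F, h1, h2, ih h3⟩

theorem Tower.of_le {n m : ℕ} (hmn : m ≤ n) {f : ℍ → ℂ} (h : Tower n f) : Tower m f := by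
  induction hmn with
  | refl => exact h
  | step _ ih => exact ih h.of_succ

theorem Good.tower {h : ℝ} {f : ℍ → ℂ} (hf : Good h f) (n : ℕ) : Tower n f := by
  induction n generalizing f with
  | zero => trivial
  | succ n ih =>
    obtain ⟨F, hF, hp⟩ := hf.exists_prim
    exact ⟨F, hp, hF.zero, ih hF⟩

theorem IsPrim.add {F f G g : ℍ → ℂ} (h : IsPrim F f) (h' : IsPrim G g) :
    IsPrim (F + G) (f + g) := fun z => (h z).add (h' z)

theorem IsPrim.smul {F f : ℍ → ℂ} (c : ℂ) (h : IsPrim F f) :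
    IsPrim (c • F) (c • f) := fun z => (h z).const_smul c

theorem isZeroAtImInfty_add {F G : ℍ → ℂ} (h : IsZeroAtImInfty F) (h' : IsZeroAtImInfty G) :
    IsZeroAtImInfty (F + G) := by
  have := Tendsto.add h h'
  rw [add_zero] at this
  exact this

theorem isZeroAtImInfty_smul {F : ℍ → ℂ} (c : ℂ) (h : IsZeroAtImInfty F) :
    IsZeroAtImInfty (c • F) := by
  have := Tendsto.const_smul h c
  rw [smul_zero] at this
  exact this

theorem Tower.add {n : ℕ} {f g : ℍ → ℂ} (hf : Tower n f) (hg : Tower n g) : Tower n (f + g) := by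
  induction n generalizing f g with
  | zero => trivial
  | succ n ih =>
    obtain ⟨F, h1, h2, h3⟩ := hf
    obtain ⟨G, g1, g2, g3⟩ := hg
    exact ⟨F + G, h1.add g1, isZeroAtImInfty_add h2 g2, ih h3 g3⟩

theorem Tower.smul {n : ℕ} {f : ℍ → ℂ} (c : ℂ) (hf : Tower n f) : Tower n (c • f) := by
  induction n generalizing f with
  | zero => trivial
  | succ n ih =>
    obtain ⟨F, h1, h2, h3⟩ := hf
    exact ⟨c • F, h1.smul c, isZeroAtImInfty_smul c h2, ih h3⟩

theorem prim_add {f g : ℍ → ℂ} (hf : Tower 1 f) (hg : Tower 1 g) :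
    prim (f + g) = prim f + prim g :=
  prim_eq (hf.isPrim.add hg.isPrim) (isZeroAtImInfty_add hf.zero_prim hg.zero_prim)

theorem prim_smul {f : ℍ → ℂ} (c : ℂ) (hf : Tower 1 f) :
    prim (c • f) = c • prim f :=
  prim_eq (hf.isPrim.smul c) (isZeroAtImInfty_smul c hf.zero_prim)

/-- transport a derivative on `ℂ` to the `∘ ofComplex` form. -/
theorem hasDerivAt_comp_ofComplex {G : ℂ → ℂ} {d : ℂ} {z : ℍ} (h : HasDerivAt G d (z : ℂ)) :
    HasDerivAt ((fun u : ℍ => G (u : ℂ)) ∘ ofComplex) d (z : ℂ) := by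
  refine h.congr_of_eventuallyEq ?_
  filter_upwards [eventuallyEq_coe_comp_ofComplex z.2] with w hw
  simp only [Function.comp_apply, id] at hw
  simp only [Function.comp_apply, hw]

section affine

variable {A : ℍ → ℍ} {μ β : ℝ}

theorem tendsto_affine (hμ : 0 < μ) (hA : ∀ z : ℍ, ((A z : ℍ) : ℂ) = μ * z + β) :
    Tendsto A atImInfty atImInfty := by
  rw [atImInfty, tendsto_comap_iff]
  have him : (UpperHalfPlane.im ∘ A) = fun z : ℍ => μ * z.im := by
    funext z
    have := congrArg Complex.im (hA z)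
    simpa using this
  rw [him]
  exact (Filter.tendsto_comap (f := UpperHalfPlane.im) (x := atTop)).const_mul_atTop hμ

theorem IsPrim.comp_affine (hμ : 0 < μ) (hA : ∀ z : ℍ, ((A z : ℍ) : ℂ) = μ * z + β)
    {F f : ℍ → ℂ} (h : IsPrim F f) :
    IsPrim ((μ : ℂ)⁻¹ • (F ∘ A)) (f ∘ A) := by
  intro z
  have hμC : (μ : ℂ) ≠ 0 := by exact_mod_cast hμ.ne'
  have h1 : HasDerivAt (fun w : ℂ => (μ : ℂ) * w + β) (μ : ℂ) (z : ℂ) := by
    simpa using ((hasDerivAt_id (z : ℂ)).const_mul (μ : ℂ)).add_const (β : ℂ)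
  have h2 : HasDerivAt (F ∘ ofComplex) (f (A z)) ((μ : ℂ) * z + β) := by
    rw [← hA z]; exact h (A z)
  have h3 := (h2.comp (z : ℂ) h1).const_smul (μ : ℂ)⁻¹
  have h4 : (μ : ℂ)⁻¹ • (f (A z) * (μ : ℂ)) = (f ∘ A) z := by
    simp only [smul_eq_mul, Function.comp_apply]
    field_simp
  rw [h4] at h3
  refine h3.congr_of_eventuallyEq ?_
  filter_upwards [isOpen_upperHalfPlaneSet'.mem_nhds z.2] with w hw
  simp only [Function.comp_apply, Pi.smul_apply]
  congr 2
  have h5 : ((A (ofComplex w) : ℍ) : ℂ) = μ * w + β := by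
    rw [hA, ofComplex_apply_of_im_pos hw]
  rw [← h5, ofComplex_apply]

theorem Tower.comp_affine (hμ : 0 < μ) (hA : ∀ z : ℍ, ((A z : ℍ) : ℂ) = μ * z + β)
    {n : ℕ} {f : ℍ → ℂ} (h : Tower n f) : Tower n (f ∘ A) := by
  induction n generalizing f with
  | zero => trivial
  | succ n ih =>
    obtain ⟨F, h1, h2, h3⟩ := h
    exact ⟨(μ : ℂ)⁻¹ • (F ∘ A), h1.comp_affine hμ hA,
      isZeroAtImInfty_smul _ (h2.comp (tendsto_affine hμ hA)), (ih h3).smul _⟩

theorem prim_comp_affine (hμ : 0 < μ) (hA : ∀ z : ℍ, ((A z : ℍ) : ℂ) = μ * z + β)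
    {f : ℍ → ℂ} (h : Tower 1 f) : prim (f ∘ A) = (μ : ℂ)⁻¹ • (prim f ∘ A) :=
  prim_eq (h.isPrim.comp_affine hμ hA)
    (isZeroAtImInfty_smul _ (h.zero_prim.comp (tendsto_affine hμ hA)))

end affine

end Fermat.Agent.S22
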